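/-
S25 tool (helper6584), Mathlib only.

A finitely generated domain over an algebraically closed field which is locally standard smooth
of relative dimension one is a Dedekind domain; the local rings at rational points of a
standard smooth algebra of relative dimension one are discrete valuation rings.
-/
import Mathlib

set_option autoImplicit false

namespace Fermat.Agent.S25.CONN.Count.H6584

open scoped TensorProduct
open KaehlerDifferential

section Cotangent

variable (κ : Type*) [Field κ] (B : Type*) [CommRing B] [Algebra κ B]
  (A : Type*) [CommRing A] [Algebra κ A] [Algebra B A] [IsScalarTower κ B A]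

/-- For a formally smooth `κ`-algebra `B` and a surjection `B → A` onto a copy of `κ`,
the conormal map `I/I² → A ⊗ Ω` is bijective. -/
theorem kerCotangentToTensor_bijective_of_bijective [Algebra.FormallySmooth κ B]
    (hκ : Function.Bijective (algebraMap κ A)) :
    Function.Bijective (kerCotangentToTensor κ B A) := by
  have hsurj : Function.Surjective (algebraMap B A) := by
    intro a
    obtain ⟨c, rfl⟩ := hκ.2 a
    exact ⟨algebraMap κ B c, (IsScalarTower.algebraMap_apply κ B A c).symm⟩
  have hfs : Algebra.FormallySmooth κ A :=
    Algebra.FormallySmooth.of_equiv (AlgEquiv.ofBijective (Algebra.ofId κ A) hκ)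
  refine ⟨?_, ?_⟩
  · rw [Algebra.FormallySmooth.kerCotangentToTensor_injective_iff hsurj]
    infer_instance
  · have hss : Subsingleton Ω[A⁄κ] := KaehlerDifferential.subsingleton_of_surjective κ A hκ.2
    rw [← LinearMap.range_eq_top, KaehlerDifferential.range_kerCotangentToTensor κ B A hsurj]
    ext x
    simp only [Submodule.restrictScalars_mem, LinearMap.mem_ker, Submodule.mem_top, iff_true]
    exact Subsingleton.elim _ _

/-- For a standard smooth `κ`-algebra `B` of relative dimension one and a surjection `B → A`
onto a copy of `κ` with kernel `I`: `I/I²` is generated by one element and is nonzero. -/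
theorem exists_generator_ker [Algebra.IsStandardSmoothOfRelativeDimension 1 κ B]
    (hκ : Function.Bijective (algebraMap κ A)) :
    ∃ t ∈ RingHom.ker (algebraMap B A), t ∉ (RingHom.ker (algebraMap B A)) ^ 2 ∧
      RingHom.ker (algebraMap B A) ≤ Ideal.span {t} ⊔ (RingHom.ker (algebraMap B A)) ^ 2 := by
  have hsurj : Function.Surjective (algebraMap B A) := by
    intro a
    obtain ⟨c, rfl⟩ := hκ.2 a
    exact ⟨algebraMap κ B c, (IsScalarTower.algebraMap_apply κ B A c).symm⟩
  have : Nontrivial A := hκ.1.nontrivial
  have : Nontrivial B := (algebraMap B A).domain_nontrivial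
  have : Algebra.IsStandardSmooth κ B :=
    Algebra.IsStandardSmoothOfRelativeDimension.isStandardSmooth 1
  have : Algebra.FormallySmooth κ B := inferInstance
  set I := RingHom.ker (algebraMap B A) with hI
  let e₁ : I.Cotangent ≃ₗ[B] A ⊗[B] Ω[B⁄κ] :=
    LinearEquiv.ofBijective (kerCotangentToTensor κ B A)
      (kerCotangentToTensor_bijective_of_bijective κ B A hκ)
  have hrank : Module.rank B Ω[B⁄κ] = Module.rank B B := by
    rw [Algebra.IsStandardSmoothOfRelativeDimension.rank_kaehlerDifferential 1, Module.rank_self]
    simp
  obtain ⟨e₂⟩ := nonempty_linearEquiv_of_rank_eq hrank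
  let e : I.Cotangent ≃ₗ[B] A := e₁ ≪≫ₗ (LinearEquiv.lTensor A e₂) ≪≫ₗ TensorProduct.rid B A
  obtain ⟨t, ht⟩ := Ideal.toCotangent_surjective I (e.symm 1)
  have het : e (I.toCotangent t) = 1 := by rw [ht]; simp
  refine ⟨t.1, t.2, ?_, ?_⟩
  · intro hmem
    have h0 : I.toCotangent t = 0 := by
      rw [Ideal.toCotangent_eq_zero]; exact hmem
    rw [h0, map_zero] at het
    exact zero_ne_one het
  · intro x hx
    obtain ⟨b, hb⟩ := hsurj (e (I.toCotangent ⟨x, hx⟩))
    have h1 : e (I.toCotangent ⟨x, hx⟩) = e (I.toCotangent (b • t)) := by
      rw [map_smul, map_smul, het, ← hb, Algebra.smul_def, mul_one]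
    have h2 := e.injective h1
    rw [Ideal.toCotangent_eq] at h2
    have h3 : x = b * t.1 + (x - b * t.1) := by ring
    rw [h3]
    refine Ideal.add_mem _ (Ideal.mem_sup_left ?_) (Ideal.mem_sup_right ?_)
    · exact Ideal.mul_mem_left _ _ (Ideal.subset_span (Set.mem_singleton _))
    · simpa using h2

end Cotangent

section DVR

/-- **Local rings of smooth curves at rational points are discrete valuation rings.**
`B'` standard smooth of relative dimension one over a field `κ`; `S` a noetherian local domain
which is a `B'`-algebra, with `B' → S` injective, residue field `κ`, and maximal ideal generated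
by elements of `B'` (e.g. `S` a localisation of `B'` at a `κ`-rational maximal ideal). -/
theorem isDiscreteValuationRing_of_standardSmooth
    (κ : Type*) [Field κ] (B' : Type*) [CommRing B'] [Algebra κ B']
    [Algebra.IsStandardSmoothOfRelativeDimension 1 κ B']
    (S : Type*) [CommRing S] [IsDomain S] [IsNoetherianRing S] [IsLocalRing S]
    [Algebra κ S] [Algebra B' S] [IsScalarTower κ B' S]
    (hinj : Function.Injective (algebraMap B' S))
    (hres : Function.Surjective (algebraMap κ (IsLocalRing.ResidueField S)))
    (hmax : IsLocalRing.maximalIdeal S ≤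
      Ideal.map (algebraMap B' S) (Ideal.comap (algebraMap B' S) (IsLocalRing.maximalIdeal S))) :
    IsDiscreteValuationRing S := by
  have hκ : Function.Bijective (algebraMap κ (IsLocalRing.ResidueField S)) :=
    ⟨(algebraMap κ (IsLocalRing.ResidueField S)).injective, hres⟩
  obtain ⟨t, htI, htI2, hle⟩ := exists_generator_ker κ B' (IsLocalRing.ResidueField S) hκ
  have hker : RingHom.ker (algebraMap B' (IsLocalRing.ResidueField S)) =
      Ideal.comap (algebraMap B' S) (IsLocalRing.maximalIdeal S) := by
    ext x
    rw [RingHom.mem_ker, Ideal.mem_comap, IsScalarTower.algebraMap_apply B' S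
      (IsLocalRing.ResidueField S)]
    exact IsLocalRing.residue_eq_zero_iff _
  rw [hker] at htI htI2 hle
  set M := IsLocalRing.maximalIdeal S with hM
  set I := Ideal.comap (algebraMap B' S) M with hI
  have hmapI : Ideal.map (algebraMap B' S) I ≤ M := Ideal.map_comap_le
  have h1 : M ≤ Ideal.span {algebraMap B' S t} ⊔ M • M := by
    refine hmax.trans ((Ideal.map_mono hle).trans ?_)
    rw [Ideal.map_sup, Ideal.map_span, Set.image_singleton, Ideal.map_pow]
    refine sup_le_sup_left ?_ _
    rw [smul_eq_mul, ← pow_two]
    exact Ideal.pow_right_mono hmapI 2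
  have h2 : M ≤ Ideal.span {algebraMap B' S t} :=
    Submodule.le_of_le_smul_of_le_jacobson_bot (IsNoetherian.noetherian M)
      (IsLocalRing.jacobson_eq_maximalIdeal ⊥ bot_ne_top).ge h1
  have h3 : M = Ideal.span {algebraMap B' S t} :=
    le_antisymm h2 ((Ideal.span_singleton_le_iff_mem _).mpr htI)
  have hnf : ¬ IsField S := by
    rw [IsLocalRing.isField_iff_maximalIdeal_eq]
    intro h0
    have ht0 : algebraMap B' S t = 0 := by
      have : algebraMap B' S t ∈ M := htI
      rw [hM, h0] at this
      simpa using this
    have : t = 0 := hinj (by rw [ht0, map_zero])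
    exact htI2 (this ▸ Ideal.zero_mem _)
  have hprinc : (IsLocalRing.maximalIdeal S).IsPrincipal := ⟨⟨_, h3⟩⟩
  exact ((IsDiscreteValuationRing.TFAE S hnf).out 0 4).mpr hprinc

/-- Zariski's lemma / Nullstellensatz: residue fields at maximal ideals of a finitely generated
algebra over an algebraically closed field are `κ`. -/
theorem algebraMap_quotient_surjective_of_isMaximal (κ : Type*) [Field κ] [IsAlgClosed κ]
    (B : Type*) [CommRing B] [Algebra κ B] [Algebra.FiniteType κ B] (m : Ideal B) [m.IsMaximal] :
    Function.Surjective (algebraMap κ (B ⧸ m)) := by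
  let _ : Field (B ⧸ m) := Ideal.Quotient.field m
  have : Algebra.FiniteType κ (B ⧸ m) :=
    Algebra.FiniteType.of_surjective (Ideal.Quotient.mkₐ κ m) (Ideal.Quotient.mkₐ_surjective κ m)
  have : Module.Finite κ (B ⧸ m) := finite_of_finite_type_of_isJacobsonRing κ (B ⧸ m)
  exact IsAlgClosed.algebraMap_bijective_of_isIntegral.2

/-- The local ring of a finitely generated domain over an algebraically closed field at a
maximal ideal `m` is a discrete valuation ring, as soon as some basic open neighbourhood `D(t)`
of `m` is standard smooth of relative dimension one. -/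
theorem isDiscreteValuationRing_localization_of_away
    (κ : Type*) [Field κ] [IsAlgClosed κ] (B : Type*) [CommRing B] [IsDomain B] [Algebra κ B]
    [Algebra.FiniteType κ B] (m : Ideal B) [hm : m.IsMaximal] (t : B) (ht : t ∉ m)
    [Algebra.IsStandardSmoothOfRelativeDimension 1 κ (Localization.Away t)] :
    IsDiscreteValuationRing (Localization.AtPrime m) := by
  have hnoeth : IsNoetherianRing B := Algebra.FiniteType.isNoetherianRing κ B
  have hnoethS : IsNoetherianRing (Localization.AtPrime m) :=
    IsLocalization.isNoetherianRing m.primeCompl _ hnoeth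
  have hu : IsUnit (algebraMap B (Localization.AtPrime m) t) :=
    IsLocalization.map_units (Localization.AtPrime m) (⟨t, ht⟩ : m.primeCompl)
  let φ : Localization.Away t →+* Localization.AtPrime m := IsLocalization.Away.lift t hu
  let _inst : Algebra (Localization.Away t) (Localization.AtPrime m) := φ.toAlgebra
  have hφ : ∀ b : B, φ (algebraMap B (Localization.Away t) b) =
      algebraMap B (Localization.AtPrime m) b := fun b => IsLocalization.Away.lift_eq t hu b
  have htow : IsScalarTower B (Localization.Away t) (Localization.AtPrime m) :=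
    IsScalarTower.of_algebraMap_eq fun b => (hφ b).symm
  have htowκ : IsScalarTower κ (Localization.Away t) (Localization.AtPrime m) :=
    IsScalarTower.of_algebraMap_eq fun c => by
      rw [IsScalarTower.algebraMap_apply κ B (Localization.AtPrime m),
        IsScalarTower.algebraMap_apply κ B (Localization.Away t)]
      exact (hφ _).symm
  have hinjS : Function.Injective (algebraMap B (Localization.AtPrime m)) :=
    IsLocalization.injective _ m.primeCompl_le_nonZeroDivisors
  have ht0 : t ≠ 0 := fun h => ht (by rw [h]; exact m.zero_mem)
  have hinjA : Function.Injective (algebraMap B (Localization.Away t)) :=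
    IsLocalization.injective _ (powers_le_nonZeroDivisors_of_noZeroDivisors ht0)
  refine isDiscreteValuationRing_of_standardSmooth κ (Localization.Away t)
    (Localization.AtPrime m) ?_ ?_ ?_
  · change Function.Injective (IsLocalization.Away.lift t hu)
    unfold IsLocalization.Away.lift
    rw [IsLocalization.lift_injective_iff]
    intro x y
    rw [hinjA.eq_iff, hinjS.eq_iff]
  · intro y
    obtain ⟨b, rfl⟩ := Ideal.algebraMap_residueField_surjective m y
    obtain ⟨c, hc⟩ := algebraMap_quotient_surjective_of_isMaximal κ B m (Ideal.Quotient.mk m b)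
    refine ⟨c, ?_⟩
    have h1 : algebraMap κ B c - b ∈ m := by
      rw [← Ideal.Quotient.eq]
      exact hc
    rw [IsScalarTower.algebraMap_apply κ B (IsLocalRing.ResidueField (Localization.AtPrime m))]
    rw [← sub_eq_zero, ← map_sub]
    have h2 : algebraMap B (Localization.AtPrime m) (algebraMap κ B c - b) ∈
        IsLocalRing.maximalIdeal (Localization.AtPrime m) :=
      (IsLocalization.AtPrime.to_map_mem_maximal_iff _ m _).mpr h1
    rw [IsScalarTower.algebraMap_apply B (Localization.AtPrime m)
      (IsLocalRing.ResidueField (Localization.AtPrime m))]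
    exact (IsLocalRing.residue_eq_zero_iff _).mpr h2
  · rw [← Localization.AtPrime.map_eq_maximalIdeal (I := m),
      IsScalarTower.algebraMap_eq B (Localization.Away t) (Localization.AtPrime m),
      ← Ideal.map_map]
    exact Ideal.map_mono Ideal.le_comap_map

end DVR

section Dedekind

/-- A domain all of whose localisations at maximal ideals are discrete valuation rings has
dimension at most one. -/
theorem isMaximal_of_isPrime_of_dvr_at_maximal (B : Type*) [CommRing B] [IsDomain B]
    (h : ∀ (m : Ideal B) [m.IsMaximal], IsDiscreteValuationRing (Localization.AtPrime m))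
    (p : Ideal B) (hp : p ≠ ⊥) (hpp : p.IsPrime) : p.IsMaximal := by
  rcases p.exists_le_maximal (Ideal.IsPrime.ne_top hpp) with ⟨q, hq, hpq⟩
  have hqp : q.IsPrime := hq.isPrime
  let f := (IsLocalization.orderIsoOfPrime q.primeCompl (Localization.AtPrime q)).symm
  let P := f ⟨p, hpp, hpq.disjoint_compl_left⟩
  let Q := f ⟨q, hq.isPrime, Set.disjoint_left.mpr fun _ a => a⟩
  have hinj : Function.Injective (algebraMap B (Localization.AtPrime q)) :=
    IsLocalization.injective (Localization.AtPrime q) q.primeCompl_le_nonZeroDivisors
  have hp1 : P.1 ≠ ⊥ := fun x => hp ((p.map_eq_bot_iff_of_injective hinj).mp x)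
  have hq1 : Q.1 ≠ ⊥ :=
    fun x => (ne_bot_of_le_ne_bot hp hpq) ((q.map_eq_bot_iff_of_injective hinj).mp x)
  rcases (IsDiscreteValuationRing.iff_pid_with_one_nonzero_prime (Localization.AtPrime q)).mp
    (h q) with ⟨_, huq⟩
  rw [show p = q from Subtype.val_inj.mpr <| f.injective <|
    Subtype.val_inj.mp (huq.unique ⟨hp1, P.2⟩ ⟨hq1, Q.2⟩)]
  exact hq

universe u

/-- Local rings at maximal ideals of a finitely generated domain over an algebraically closed
field, locally standard smooth of relative dimension one, are discrete valuation rings. -/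
theorem isDiscreteValuationRing_localization_of_locally_standardSmooth
    (κ : Type u) [Field κ] [IsAlgClosed κ] (B : Type u) [CommRing B] [IsDomain B] [Algebra κ B]
    [Algebra.FiniteType κ B]
    (hsm : RingHom.Locally (RingHom.IsStandardSmoothOfRelativeDimension 1) (algebraMap κ B))
    (m : Ideal B) [hm : m.IsMaximal] :
    IsDiscreteValuationRing (Localization.AtPrime m) := by
  obtain ⟨s, hs, h⟩ := hsm
  obtain ⟨t, hts, htm⟩ : ∃ t ∈ s, t ∉ m := by
    by_contra hcon
    push Not at hcon
    have hle : Ideal.span s ≤ m := Ideal.span_le.mpr hcon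
    rw [hs] at hle
    exact hm.ne_top (top_le_iff.mp hle)
  have h1 := h t hts
  rw [← IsScalarTower.algebraMap_eq κ B (Localization.Away t),
    RingHom.isStandardSmoothOfRelativeDimension_algebraMap] at h1
  exact isDiscreteValuationRing_localization_of_away κ B m t htm

/-- **Smooth affine curves over an algebraically closed field are Dedekind.**
A finitely generated domain over an algebraically closed field `κ` which is locally standard
smooth of relative dimension one over `κ` is a Dedekind domain. -/
theorem isDedekindDomain_of_locally_standardSmooth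
    (κ : Type u) [Field κ] [IsAlgClosed κ] (B : Type u) [CommRing B] [IsDomain B] [Algebra κ B]
    [Algebra.FiniteType κ B]
    (hsm : RingHom.Locally (RingHom.IsStandardSmoothOfRelativeDimension 1) (algebraMap κ B)) :
    IsDedekindDomain B := by
  have hdvr : ∀ (m : Ideal B) [m.IsMaximal],
      IsDiscreteValuationRing (Localization.AtPrime m) := fun m _ =>
    isDiscreteValuationRing_localization_of_locally_standardSmooth κ B hsm m
  have hnoeth : IsNoetherianRing B := Algebra.FiniteType.isNoetherianRing κ B
  have : IsDedekindDomainDvr B :=
    { is_dvr_at_nonzero_prime := fun P hP hPp => by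
        have hPm : P.IsMaximal := isMaximal_of_isPrime_of_dvr_at_maximal B hdvr P hP hPp
        exact hdvr P }
  infer_instance

/-- ... and it is not a field. -/
theorem not_isField_of_locally_standardSmooth
    (κ : Type u) [Field κ] [IsAlgClosed κ] (B : Type u) [CommRing B] [IsDomain B] [Algebra κ B]
    [Algebra.FiniteType κ B]
    (hsm : RingHom.Locally (RingHom.IsStandardSmoothOfRelativeDimension 1) (algebraMap κ B)) :
    ¬ IsField B := by
  intro hB
  let _fld : Field B := hB.toField
  have hmax : (⊥ : Ideal B).IsMaximal := Ideal.bot_isMaximal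
  have hdvr := isDiscreteValuationRing_localization_of_locally_standardSmooth κ B hsm ⊥
  have hle : (⊥ : Ideal B).primeCompl ≤ IsUnit.submonoid B := by
    intro x hx
    have hx0 : x ≠ 0 := fun h0 => hx (by rw [h0]; exact Ideal.zero_mem _)
    exact isUnit_iff_ne_zero.mpr hx0
  let e : B ≃ₐ[B] Localization.AtPrime (⊥ : Ideal B) :=
    IsLocalization.atUnits B (⊥ : Ideal B).primeCompl hle
  exact IsDiscreteValuationRing.not_isField (Localization.AtPrime (⊥ : Ideal B))
    (e.symm.toMulEquiv.isField hB)

end Dedekind

end Fermat.Agent.S25.CONN.Count.H6584
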