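/-
S25 package A0 piece (helper6584): for a curve presentation `𝒞 : CurveData k` over an
algebraically closed field `k` and an algebraically closed extension `κ`, the chart rings
`κ ⊗[k] 𝒞.A₁`, `κ ⊗[k] 𝒞.A₂` are Dedekind domains, finitely generated over `κ`, and their
maximal ideals are the kernels of `κ`-points.
-/
import Fermat.Agent.S25.Core
import Fermat.Agent.S25.CONN.Count.TensorDomainH9105
import Fermat.Agent.S25.CONN.Count.H6584.SmoothDVR

set_option autoImplicit false

namespace Fermat.Agent.S25.CONN.Count.H6584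

open scoped TensorProduct

universe u

section General

/-- A ring which is module-finite over the subalgebra generated by one element is a finitely
generated algebra. -/
theorem finiteType_of_finite_adjoin_singleton (k : Type*) [CommRing k] (A : Type*) [CommRing A]
    [Algebra k A] (f : A) [Module.Finite (Algebra.adjoin k ({f} : Set A)) A] :
    Algebra.FiniteType k A := by
  have h0 : (Algebra.adjoin k ({f} : Set A)).FG := by
    have := Subalgebra.fg_adjoin_finset (R := k) ({f} : Finset A)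
    simpa using this
  have h1 : Algebra.FiniteType k (Algebra.adjoin k ({f} : Set A)) :=
    (Subalgebra.fg_iff_finiteType _).mp h0
  have h2 : Algebra.FiniteType (Algebra.adjoin k ({f} : Set A)) A := inferInstance
  exact Algebra.FiniteType.trans h1 h2

/-- Maximal ideals of a finitely generated algebra over an algebraically closed field are
kernels of points. -/
theorem exists_algHom_ker_eq (κ : Type*) [Field κ] [IsAlgClosed κ] (B : Type*) [CommRing B]
    [Algebra κ B] [Algebra.FiniteType κ B] (m : Ideal B) [m.IsMaximal] :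
    ∃ φ : B →ₐ[κ] κ, RingHom.ker φ = m := by
  have hbij : Function.Bijective (algebraMap κ (B ⧸ m)) :=
    ⟨(algebraMap κ (B ⧸ m)).injective, algebraMap_quotient_surjective_of_isMaximal κ B m⟩
  let e : κ ≃ₐ[κ] (B ⧸ m) := AlgEquiv.ofBijective (Algebra.ofId κ (B ⧸ m)) hbij
  refine ⟨(e.symm : (B ⧸ m) →ₐ[κ] κ).comp (Ideal.Quotient.mkₐ κ m), ?_⟩
  ext x
  rw [RingHom.mem_ker]
  change e.symm (Ideal.Quotient.mk m x) = 0 ↔ _
  rw [map_eq_zero_iff _ e.symm.injective, Ideal.Quotient.eq_zero_iff_mem]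

/-- Kernels of points are maximal ideals. -/
theorem isMaximal_ker_algHom (κ : Type*) [Field κ] (B : Type*) [CommRing B] [Algebra κ B]
    (φ : B →ₐ[κ] κ) : (RingHom.ker φ).IsMaximal :=
  RingHom.ker_isMaximal_of_surjective φ (fun c => ⟨algebraMap κ B c, by simp⟩)

end General

section Curve

variable {k : Type u} [Field k] (𝒞 : CurveData k)

theorem curve_finiteType₁ : Algebra.FiniteType k 𝒞.A₁ :=
  haveI := 𝒞.fin₁
  finiteType_of_finite_adjoin_singleton k 𝒞.A₁ 𝒞.f

theorem curve_finiteType₂ : Algebra.FiniteType k 𝒞.A₂ :=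
  haveI := 𝒞.fin₂
  finiteType_of_finite_adjoin_singleton k 𝒞.A₂ 𝒞.g

variable (κ : Type u) [Field κ] [Algebra k κ]

theorem curve_baseChange_finiteType₁ : Algebra.FiniteType κ (κ ⊗[k] 𝒞.A₁) :=
  haveI := curve_finiteType₁ 𝒞
  inferInstance

theorem curve_baseChange_finiteType₂ : Algebra.FiniteType κ (κ ⊗[k] 𝒞.A₂) :=
  haveI := curve_finiteType₂ 𝒞
  inferInstance

theorem curve_baseChange_smooth₁ :
    RingHom.Locally (RingHom.IsStandardSmoothOfRelativeDimension 1)
      (algebraMap κ (κ ⊗[k] 𝒞.A₁)) :=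
  (RingHom.locally_isStableUnderBaseChange
    (RingHom.isStandardSmoothOfRelativeDimension_respectsIso (n := 1))
    (RingHom.isStandardSmoothOfRelativeDimension_isStableUnderBaseChange 1)).tensorProduct κ
    𝒞.smooth₁

theorem curve_baseChange_smooth₂ :
    RingHom.Locally (RingHom.IsStandardSmoothOfRelativeDimension 1)
      (algebraMap κ (κ ⊗[k] 𝒞.A₂)) :=
  (RingHom.locally_isStableUnderBaseChange
    (RingHom.isStandardSmoothOfRelativeDimension_respectsIso (n := 1))
    (RingHom.isStandardSmoothOfRelativeDimension_isStableUnderBaseChange 1)).tensorProduct κ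
    𝒞.smooth₂

section Points

variable [IsAlgClosed κ]

/-- **A0** (points): maximal ideals of `κ ⊗[k] A₁` are kernels of `κ`-points. -/
theorem curve_baseChange_exists_point₁ (m : Ideal (κ ⊗[k] 𝒞.A₁)) [m.IsMaximal] :
    ∃ φ : (κ ⊗[k] 𝒞.A₁) →ₐ[κ] κ, RingHom.ker φ = m :=
  haveI := curve_baseChange_finiteType₁ 𝒞 κ
  exists_algHom_ker_eq κ _ m

/-- **A0** (points): maximal ideals of `κ ⊗[k] A₂` are kernels of `κ`-points. -/
theorem curve_baseChange_exists_point₂ (m : Ideal (κ ⊗[k] 𝒞.A₂)) [m.IsMaximal] :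
    ∃ φ : (κ ⊗[k] 𝒞.A₂) →ₐ[κ] κ, RingHom.ker φ = m :=
  haveI := curve_baseChange_finiteType₂ 𝒞 κ
  exists_algHom_ker_eq κ _ m

end Points

variable [IsAlgClosed k]

theorem curve_baseChange_isDomain₁ : IsDomain (κ ⊗[k] 𝒞.A₁) :=
  haveI := 𝒞.dom₁
  H9105.isDomain_tensorProduct k κ 𝒞.A₁

theorem curve_baseChange_isDomain₂ : IsDomain (κ ⊗[k] 𝒞.A₂) :=
  haveI := 𝒞.dom₂
  H9105.isDomain_tensorProduct k κ 𝒞.A₂


variable [IsAlgClosed κ]

/-- **A0**: `κ ⊗[k] A₁` is a Dedekind domain. -/
theorem curve_baseChange_isDedekindDomain₁ : IsDedekindDomain (κ ⊗[k] 𝒞.A₁) :=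
  haveI := curve_baseChange_isDomain₁ 𝒞 κ
  haveI := curve_baseChange_finiteType₁ 𝒞 κ
  isDedekindDomain_of_locally_standardSmooth κ _ (curve_baseChange_smooth₁ 𝒞 κ)

/-- **A0**: `κ ⊗[k] A₂` is a Dedekind domain. -/
theorem curve_baseChange_isDedekindDomain₂ : IsDedekindDomain (κ ⊗[k] 𝒞.A₂) :=
  haveI := curve_baseChange_isDomain₂ 𝒞 κ
  haveI := curve_baseChange_finiteType₂ 𝒞 κ
  isDedekindDomain_of_locally_standardSmooth κ _ (curve_baseChange_smooth₂ 𝒞 κ)

end Curve

end Fermat.Agent.S25.CONN.Count.H6584
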